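/-
TEAM TW56 -> S56, block [TWSEL] (architect helper74): existence of Taylor-Wiles primes, raw form.

`ρ : G_ℚ → GL₂(k)` as in S56 (`RhoHyp`), `ψ : G_ℚ → ad⁰ ⊗ det` a finite level 1-cocycle which is not a
coboundary.  Then for all `n` and all finite sets `T` there is a prime `q ∉ T`, `q ≡ 1 mod p^(n+1)`,
such that `ψ` is not a coboundary on any decomposition group over `q`, and `ρ(Frob_q)` has distinct
eigenvalues.  Only the Frobenius density theorem `FD.stmt_FD` is used (all conditions depend on the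
cyclic group generated by the Frobenius).

   Tower : `ψ = 0` on `ker ρ ∩ Gal(ℚ̄/ℚ(μ_{p^(n+1)}))`  ⟹  `ψ` is a coboundary   (Grp.H1van, AdIrr)
   Pick  : the element `g` of `G_ℚ`                                               (RegSS, Coker, AdIrr)
   One   : FD + transport from `g` to a Frobenius `σ` with `⟨σ⟩ = ⟨g⟩` at finite level
   TWSEL : all places over `q`, all Frobenius lifts;   TWset : one prime per class;
   V     : the same for a `ResidualGaloisRep k` (endomorphisms of `V` instead of matrices).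
-/
import Fermat.Agent.TW56.Grp.Interface
import Fermat.Prelude.Def_GaloisRep_Residual

set_option autoImplicit false

noncomputable section

namespace Fermat.Agent.TW56.Sel

open Matrix Polynomial Fermat.Agent.TW56.Grp

/-- `ℚ̄` -/
abbrev Qb : Type := AlgebraicClosure ℚ
/-- `G_ℚ` -/
abbrev GQ : Type := Qb ≃ₐ[ℚ] Qb
/-- subfields of `ℚ̄` -/
abbrev IF : Type := IntermediateField ℚ Qb

variable {k : Type} [Field k]

/-- the hypotheses of S56, in matrix form. -/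
structure RhoHyp (p : ℕ) (ρ : GQ →* GL (Fin 2) k) : Prop where
  lev : ∃ F : IF, FiniteDimensional ℚ F ∧ ∀ s ∈ F.fixingSubgroup, ρ s = 1
  det : ∀ (σ : GQ) (a : ℕ), (∀ μ : Qb, μ ^ p = 1 → σ μ = μ ^ a) → (ρ σ : M2 k).det = (a : k)
  big : Big p ρ.range

/-- finite level 1-cocycles `G_ℚ → ad⁰ ⊗ det`. -/
structure IsCocQ (ρ : GQ →* GL (Fin 2) k) (ψ : GQ → M2 k) : Prop where
  tr : ∀ g, (ψ g).trace = 0
  coc : ∀ g h, ψ (g * h) = ψ g + act (ρ g) (ψ h)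
  lev : ∃ F : IF, FiniteDimensional ℚ F ∧ ∀ g s : GQ, s ∈ F.fixingSubgroup → ψ (g * s) = ψ g

/-- `ψ` is a coboundary on the subgroup `D`. -/
def IsCobOn (ρ : GQ →* GL (Fin 2) k) (ψ : GQ → M2 k) (D : Subgroup GQ) : Prop :=
  ∃ m : M2 k, m.trace = 0 ∧ ∀ g ∈ D, ψ g = act (ρ g) m - m

/-- `g` fixes the `p^(n+1)`-th roots of unity. -/
def FixMu (p n : ℕ) (g : GQ) : Prop := ∀ μ : Qb, μ ^ p ^ (n + 1) = 1 → g μ = μ

/-- distinct eigenvalues in `k`. -/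
def Reg (h : GL (Fin 2) k) : Prop :=
  ∃ a b : k, a ≠ b ∧ (h : M2 k).charpoly = (X - C a) * (X - C b)

/-- SEL-TOWER. -/
def Stmt_Tower : Prop :=
  ∀ (p : ℕ) [Fact p.Prime] (k : Type) [Field k] [Finite k] [CharP k p], p ≠ 2 →
    ∀ (ρ : GQ →* GL (Fin 2) k), RhoHyp p ρ → ∀ ψ : GQ → M2 k, IsCocQ ρ ψ → ∀ n : ℕ,
    (∀ s : GQ, ρ s = 1 → FixMu p n s → ψ s = 0) → IsCobOn ρ ψ ⊤

/-- SEL-PICK. -/
def Stmt_Pick : Prop :=
  ∀ (p : ℕ) [Fact p.Prime] (k : Type) [Field k] [Finite k] [CharP k p], p ≠ 2 →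
    ∀ (ρ : GQ →* GL (Fin 2) k), RhoHyp p ρ → ∀ ψ : GQ → M2 k, IsCocQ ρ ψ → ¬ IsCobOn ρ ψ ⊤ →
    ∀ n : ℕ, ∃ g : GQ, FixMu p n g ∧ Reg (ρ g) ∧
      ¬ ∃ m : M2 k, m.trace = 0 ∧ ψ g = act (ρ g) m - m

/-- SEL-FIELD : a finite normal extension containing the levels of `ρ`, `ψ` and `μ_{p^(n+1)}`. -/
def Stmt_Field : Prop :=
  ∀ (p : ℕ) [Fact p.Prime] (k : Type) [Field k] (ρ : GQ →* GL (Fin 2) k) (ψ : GQ → M2 k),
    (∃ F : IF, FiniteDimensional ℚ F ∧ ∀ s ∈ F.fixingSubgroup, ρ s = 1) →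
    (∃ F : IF, FiniteDimensional ℚ F ∧ ∀ g s : GQ, s ∈ F.fixingSubgroup → ψ (g * s) = ψ g) →
    ∀ n : ℕ, ∃ L : IF, FiniteDimensional ℚ L ∧ Normal ℚ L ∧
      ∀ s : GQ, (∀ x ∈ L, s x = x) → ρ s = 1 ∧ (∀ g, ψ (g * s) = ψ g) ∧ FixMu p n s

/-- SEL-TRANS : transport along `⟨σ⟩ = ⟨g⟩` modulo a subgroup on which everything is trivial. -/
def Stmt_Trans : Prop :=
  ∀ (p : ℕ) [Fact p.Prime] (k : Type) [Field k] (ρ : GQ →* GL (Fin 2) k) (ψ : GQ → M2 k),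
    IsCocQ ρ ψ → (∀ g : GQ, ∃ a b : k, (ρ g : M2 k).charpoly = (X - C a) * (X - C b)) →
    ∀ (n : ℕ) (g σ s s' : GQ) (j j' : ℕ), g = σ ^ j * s → σ = g ^ j' * s' →
    (ρ s = 1 ∧ (∀ x, ψ (x * s) = ψ x) ∧ FixMu p n s) →
    (ρ s' = 1 ∧ (∀ x, ψ (x * s') = ψ x) ∧ FixMu p n s') →
    FixMu p n g → Reg (ρ g) → (¬ ∃ m : M2 k, m.trace = 0 ∧ ψ g = act (ρ g) m - m) →
    FixMu p n σ ∧ Reg (ρ σ) ∧ ¬ ∃ m : M2 k, m.trace = 0 ∧ ψ σ = act (ρ σ) m - m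

/-- SEL-ONE : one place, one Frobenius. -/
def Stmt_One : Prop :=
  ∀ (p : ℕ) [Fact p.Prime] (k : Type) [Field k] [Finite k] [CharP k p], p ≠ 2 →
    ∀ (ρ : GQ →* GL (Fin 2) k), RhoHyp p ρ → ∀ ψ : GQ → M2 k, IsCocQ ρ ψ → ¬ IsCobOn ρ ψ ⊤ →
    ∀ (n : ℕ) (T : Finset ℕ), ∃ (q : ℕ) (A : ValuationSubring Qb) (σ : GQ), q.Prime ∧ q ∉ T ∧
      A.LiesOverPrime q ∧ A.IsFrobeniusAt σ q ∧ FixMu p n σ ∧ Reg (ρ σ) ∧
      ¬ ∃ m : M2 k, m.trace = 0 ∧ ψ σ = act (ρ σ) m - m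

/-- SEL-CONG : a Frobenius at `q ≠ p` which fixes `μ_{p^(n+1)}` forces `q ≡ 1 mod p^(n+1)`. -/
def Stmt_Cong : Prop :=
  ∀ (p : ℕ) [Fact p.Prime] (n q : ℕ) (A : ValuationSubring Qb) (σ : GQ), q.Prime → q ≠ p →
    A.LiesOverPrime q → A.IsFrobeniusAt σ q → FixMu p n σ → p ^ (n + 1) ∣ q - 1

/-- SEL-PLACES : from one place and one Frobenius to all places and all Frobenius lifts. -/
def Stmt_Places : Prop :=
  ∀ (k : Type) [Field k] (ρ : GQ →* GL (Fin 2) k) (ψ : GQ → M2 k), IsCocQ ρ ψ →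
    ∀ (q : ℕ) (A : ValuationSubring Qb) (σ : GQ), q.Prime → A.LiesOverPrime q →
    A.IsFrobeniusAt σ q →
    ((¬ ∃ m : M2 k, m.trace = 0 ∧ ψ σ = act (ρ σ) m - m) →
      ∀ A' : ValuationSubring Qb, A'.LiesOverPrime q →
        ¬ IsCobOn ρ ψ (A'.decompositionSubgroup ℚ)) ∧
    (Reg (ρ σ) → (∀ A' : ValuationSubring Qb, A'.LiesOverPrime q →
        ∀ i ∈ A'.inertiaSubgroupIn ℚ, ρ i = 1) →
      ∀ A' : ValuationSubring Qb, A'.LiesOverPrime q → ∀ φ : GQ, A'.IsFrobeniusAt φ q → Reg (ρ φ))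

/-- the property of a Taylor-Wiles prime for `ψ`. -/
def IsTWPrime (p n : ℕ) (ρ : GQ →* GL (Fin 2) k) (ψ : GQ → M2 k) (q : ℕ) : Prop :=
  q.Prime ∧ p ^ (n + 1) ∣ q - 1 ∧
    (∀ A : ValuationSubring Qb, A.LiesOverPrime q → ¬ IsCobOn ρ ψ (A.decompositionSubgroup ℚ)) ∧
    ((∀ A : ValuationSubring Qb, A.LiesOverPrime q → ∀ i ∈ A.inertiaSubgroupIn ℚ, ρ i = 1) →
      ∀ A : ValuationSubring Qb, A.LiesOverPrime q → ∀ φ : GQ, A.IsFrobeniusAt φ q → Reg (ρ φ))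

/-- **SEL-MAIN** (matrix form). -/
def Stmt_TWSEL : Prop :=
  ∀ (p : ℕ) [Fact p.Prime] (k : Type) [Field k] [Finite k] [CharP k p], p ≠ 2 →
    ∀ (ρ : GQ →* GL (Fin 2) k), RhoHyp p ρ → ∀ ψ : GQ → M2 k, IsCocQ ρ ψ → ¬ IsCobOn ρ ψ ⊤ →
    ∀ (n : ℕ) (T : Finset ℕ), ∃ q : ℕ, q ∉ T ∧ IsTWPrime p n ρ ψ q

/-- SEL-SET : one prime per cocycle, pairwise distinct. -/
def Stmt_TWset : Prop :=
  ∀ (p : ℕ) [Fact p.Prime] (k : Type) [Field k] [Finite k] [CharP k p], p ≠ 2 →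
    ∀ (ρ : GQ →* GL (Fin 2) k), RhoHyp p ρ → ∀ (r : ℕ) (ψ : Fin r → GQ → M2 k),
    (∀ i, IsCocQ ρ (ψ i)) → (∀ i, ¬ IsCobOn ρ (ψ i) ⊤) →
    ∀ (n : ℕ) (T : Finset ℕ), ∃ qv : Fin r → ℕ, Function.Injective qv ∧
      ∀ i, qv i ∉ T ∧ IsTWPrime p n ρ (ψ i) (qv i)

/-! ### the same for a `ResidualGaloisRep` -/

/-- the hypotheses of S56 on `ρ̄` (`hdet` unfolded at level `p`). -/
structure RbarHyp (p : ℕ) (ρbar : ResidualGaloisRep k) : Prop where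
  abs : ρbar.IsAbsolutelyIrreducible
  det : ∀ (σ : GQ) (a : ℕ), (∀ μ : Qb, μ ^ p = 1 → σ μ = μ ^ a) →
    LinearMap.det (ρbar.ρ σ) = (a : k)
  split : ∀ σ : GQ, ∃ α β : k, LinearMap.charpoly (ρbar.ρ σ) = (X - C α) * (X - C β)
  tw : ∀ (K : Type) [Field K] [Algebra k K] (G : Subgroup GQ), G.index = 2 →
    ∀ V : Submodule K (ρbar.baseChange K).V,
      (∀ σ ∈ G, ∀ x ∈ V, (ρbar.baseChange K).ρ σ x ∈ V) → V = ⊥ ∨ V = ⊤

/-- the action on `End(V) ⊗ det`. -/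
def actV (ρbar : ResidualGaloisRep k) (g : GQ) (m : Module.End k ρbar.V) : Module.End k ρbar.V :=
  LinearMap.det (ρbar.ρ g) • (ρbar.ρ g * m * ρbar.ρ g⁻¹)

/-- finite level cocycles with values in `ad⁰(V) ⊗ det`. -/
structure IsCocV (ρbar : ResidualGaloisRep k) (ψ : GQ → Module.End k ρbar.V) : Prop where
  tr : ∀ g, LinearMap.trace k ρbar.V (ψ g) = 0
  coc : ∀ g h, ψ (g * h) = ψ g + actV ρbar g (ψ h)
  lev : ∃ F : IF, FiniteDimensional ℚ F ∧ ∀ g s : GQ, s ∈ F.fixingSubgroup → ψ (g * s) = ψ g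

/-- coboundaries on `D`. -/
def IsCobV (ρbar : ResidualGaloisRep k) (ψ : GQ → Module.End k ρbar.V) (D : Subgroup GQ) : Prop :=
  ∃ m : Module.End k ρbar.V, LinearMap.trace k ρbar.V m = 0 ∧ ∀ g ∈ D, ψ g = actV ρbar g m - m

/-- SEL-MAT : matrix form of `ρ̄`. -/
def Stmt_Mat : Prop :=
  ∀ (p : ℕ) [Fact p.Prime] (k : Type) [Field k] [Finite k] [CharP k p]
    (ρbar : ResidualGaloisRep k), RbarHyp p ρbar →
    ∃ (b : Module.Basis (Fin 2) k ρbar.V) (ρ : GQ →* GL (Fin 2) k), RhoHyp p ρ ∧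
      ∀ g, (ρ g : M2 k) = LinearMap.toMatrix b b (ρbar.ρ g)

/-- **SEL-V** : the final form consumed by the top level of S56. -/
def Stmt_TWsetV : Prop :=
  ∀ (p : ℕ) [Fact p.Prime] (k : Type) [Field k] [Finite k] [CharP k p], p ≠ 2 →
    ∀ (ρbar : ResidualGaloisRep k), RbarHyp p ρbar →
    ∀ (r : ℕ) (ψ : Fin r → GQ → Module.End k ρbar.V),
    (∀ i, IsCocV ρbar (ψ i)) → (∀ i, ¬ IsCobV ρbar (ψ i) ⊤) →
    ∀ (n : ℕ) (T : Finset ℕ), (∀ q : ℕ, q.Prime → q ∉ T → ρbar.IsUnramifiedAt q) →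
    ∃ qv : Fin r → ℕ, Function.Injective qv ∧ ∀ i, (qv i).Prime ∧ qv i ∉ T ∧
      p ^ (n + 1) ∣ qv i - 1 ∧
      (∀ A : ValuationSubring Qb, A.LiesOverPrime (qv i) →
        ¬ IsCobV ρbar (ψ i) (A.decompositionSubgroup ℚ)) ∧
      ∀ A : ValuationSubring Qb, A.LiesOverPrime (qv i) → ∀ φ : GQ, A.IsFrobeniusAt φ (qv i) →
        ∃ α β : k, α ≠ β ∧ LinearMap.charpoly (ρbar.ρ φ) = (X - C α) * (X - C β)

end Fermat.Agent.TW56.Sel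

end
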