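/-
TEAM TW56 -> S56, block [TWSEL], SEL-PLACES: all places over `q`, all Frobenius lifts.
-/
import Fermat.Agent.TW56.Sel.Interface
import Fermat.Agent.CFT.Num.DC
import Fermat.Agent.CFT.GN.DictAB
import Fermat.Agent.CFT.GN.DictD

set_option autoImplicit false

noncomputable section

namespace Fermat.Agent.TW56.Sel

open Matrix Polynomial Fermat.Agent.TW56.Grp

/-! ### the action -/

section Act

variable {k : Type} [Field k]

theorem Places_act_one (m : M2 k) : act (1 : GL (Fin 2) k) m = m := by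
  simp [act]

theorem Places_act_mul (g h : GL (Fin 2) k) (m : M2 k) : act (g * h) m = act g (act h m) := by
  simp only [act, Units.val_mul, Matrix.det_mul, _root_.mul_inv_rev, Matrix.mul_smul,
    Matrix.smul_mul, smul_smul, Matrix.mul_assoc]

theorem Places_act_add (g : GL (Fin 2) k) (m n : M2 k) : act g (m + n) = act g m + act g n := by
  simp only [act, Matrix.mul_add, Matrix.add_mul, smul_add]

theorem Places_trace_act (g : GL (Fin 2) k) (m : M2 k) :
    (act g m).trace = (g : M2 k).det * m.trace := by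
  rw [act, Matrix.trace_smul, Matrix.trace_mul_comm, ← Matrix.mul_assoc, ← Units.val_mul,
    inv_mul_cancel, Units.val_one, Matrix.one_mul, smul_eq_mul]

/-- the action as a homomorphism. -/
def Places_actHom : GL (Fin 2) k →* AddMonoid.End (M2 k) where
  toFun g := { toFun := act g, map_zero' := by simp [act], map_add' := Places_act_add g }
  map_one' := by ext1 m; exact Places_act_one m
  map_mul' g h := by ext1 m; exact Places_act_mul g h m

@[simp] theorem Places_actHom_apply (g : GL (Fin 2) k) (m : M2 k) :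
    Places_actHom g m = act g m := rfl

end Act

/-! ### conjugation of cocycles -/

theorem Places_conj {G M : Type*} [Group G] [AddCommGroup M] (a : G →* AddMonoid.End M)
    (ψ : G → M) (hψ : ∀ g h, ψ (g * h) = ψ g + a g (ψ h)) (g x : G) (m : M)
    (h : ψ (g * x * g⁻¹) = a (g * x * g⁻¹) m - m) :
    ψ x = a x (a g⁻¹ (m + ψ g)) - a g⁻¹ (m + ψ g) := by
  have hmul : ∀ (u v : G) (y : M), a (u * v) y = a u (a v y) := fun u v y => by
    rw [map_mul]; rfl
  have hinv : ∀ (u : G) (y : M), a u⁻¹ (a u y) = y := fun u y => by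
    rw [← hmul, inv_mul_cancel, map_one]; rfl
  have h1 : ψ 1 = 0 := by
    have := hψ 1 1
    rw [mul_one, map_one] at this
    have h' : ψ 1 = ψ 1 + ψ 1 := this
    simpa using h'
  have h2 : ψ g⁻¹ = - a g⁻¹ (ψ g) := by
    have := hψ g⁻¹ g
    rw [inv_mul_cancel, h1] at this
    exact eq_neg_of_add_eq_zero_left this.symm
  have h3 : a g (ψ x) = a g (a x (a g⁻¹ (m + ψ g))) - (m + ψ g) := by
    have e := hψ (g * x) g⁻¹
    rw [hψ g x, h, h2, hmul (g * x) g⁻¹, hmul g x, hmul g x] at e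
    simp only [map_neg, map_add] at e ⊢
    have e' : a g (ψ x) = a g (a x (a g⁻¹ m)) - m - ψ g + a g (a x (a g⁻¹ (ψ g))) := by
      rw [e]; abel
    rw [e']; abel
  have h4 := congrArg (a g⁻¹) h3
  rw [hinv, map_sub, hinv] at h4
  exact h4

/-! ### Frobenius elements and inertia -/

section Frob

theorem Places_mem_inertiaIn_iff (A : ValuationSubring Qb) (σ : GQ) :
    σ ∈ A.inertiaSubgroupIn ℚ ↔ ∃ h : σ ∈ A.decompositionSubgroup ℚ,
      ∀ x : IsLocalRing.ResidueField A, (⟨σ, h⟩ : A.decompositionSubgroup ℚ) • x = x := by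
  unfold ValuationSubring.inertiaSubgroupIn
  rw [Subgroup.mem_map]
  constructor
  · rintro ⟨s, hs, rfl⟩
    refine ⟨s.2, fun x => ?_⟩
    have h1 : MulSemiringAction.toRingAut (A.decompositionSubgroup ℚ)
      (IsLocalRing.ResidueField A) s = 1 := hs
    exact congrArg (fun e : RingAut (IsLocalRing.ResidueField A) => e x) h1
  · rintro ⟨h, hx⟩
    refine ⟨⟨σ, h⟩, ?_, rfl⟩
    show MulSemiringAction.toRingAut (A.decompositionSubgroup ℚ)
      (IsLocalRing.ResidueField A) ⟨σ, h⟩ = 1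
    ext x
    exact hx x

theorem Places_frob_div (A : ValuationSubring Qb) (ℓ : ℕ) (φ₀ σ : GQ)
    (hφ : A.IsFrobeniusAt φ₀ ℓ) (hσ : A.IsFrobeniusAt σ ℓ) :
    φ₀⁻¹ * σ ∈ A.inertiaSubgroupIn ℚ := by
  rw [Places_mem_inertiaIn_iff]
  obtain ⟨h1, hx1⟩ := hφ
  obtain ⟨h2, hx2⟩ := hσ
  refine ⟨mul_mem (inv_mem h1) h2, fun x => ?_⟩
  have e : (⟨φ₀⁻¹ * σ, mul_mem (inv_mem h1) h2⟩ : A.decompositionSubgroup ℚ)
      = (⟨φ₀, h1⟩ : A.decompositionSubgroup ℚ)⁻¹ * ⟨σ, h2⟩ := rfl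
  rw [e, mul_smul, hx2, ← hx1, inv_smul_smul]

theorem Places_frob_iff (A : ValuationSubring Qb) (σ : GQ) (q : ℕ) :
    A.IsFrobeniusAt σ q ↔ σ ∈ A.decompositionSubgroup ℚ ∧ ∀ a ∈ A, σ a - a ^ q ∈ A.nonunits := by
  constructor
  · rintro ⟨hσ, h⟩
    refine ⟨hσ, fun a ha => ?_⟩
    have h1 := h (IsLocalRing.residue A ⟨a, ha⟩)
    rw [← IsLocalRing.ResidueField.residue_smul, ← map_pow, ← sub_eq_zero, ← map_sub,
      IsLocalRing.residue_eq_zero_iff, ← ValuationSubring.coe_mem_nonunits_iff] at h1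
    exact h1
  · rintro ⟨hσ, h⟩
    refine ⟨hσ, fun xbar => ?_⟩
    obtain ⟨x, rfl⟩ := IsLocalRing.residue_surjective xbar
    rw [← IsLocalRing.ResidueField.residue_smul, ← map_pow, ← sub_eq_zero, ← map_sub,
      IsLocalRing.residue_eq_zero_iff, ← ValuationSubring.coe_mem_nonunits_iff]
    exact h x x.2

theorem Places_nonunits_iff {A A' : ValuationSubring Qb} {g : GQ}
    (hg : ∀ x : Qb, g x ∈ A' ↔ x ∈ A) (x : Qb) : g x ∈ A'.nonunits ↔ x ∈ A.nonunits := by
  rw [ValuationSubring.mem_nonunits_iff_or, ValuationSubring.mem_nonunits_iff_or, ← map_inv₀, hg,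
    map_eq_zero_iff g g.injective]

theorem Places_conj_apply (g φ : GQ) (x : Qb) : g ((g⁻¹ * φ * g) x) = φ (g x) := by
  show g (g⁻¹ (φ (g x))) = φ (g x)
  exact g.apply_symm_apply _

theorem Places_dec_conj {A A' : ValuationSubring Qb} {g : GQ}
    (hg : ∀ x : Qb, g x ∈ A' ↔ x ∈ A) {φ : GQ} (hφ : φ ∈ A'.decompositionSubgroup ℚ) :
    g⁻¹ * φ * g ∈ A.decompositionSubgroup ℚ := by
  rw [CFT.Num.DC_mem_decomp_iff] at hφ ⊢
  intro x
  rw [← hg, Places_conj_apply, hφ, hg]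

theorem Places_frob_conj {A A' : ValuationSubring Qb} {g : GQ}
    (hg : ∀ x : Qb, g x ∈ A' ↔ x ∈ A) {φ : GQ} {q : ℕ} (hφ : A'.IsFrobeniusAt φ q) :
    A.IsFrobeniusAt (g⁻¹ * φ * g) q := by
  rw [Places_frob_iff] at hφ ⊢
  refine ⟨Places_dec_conj hg hφ.1, fun a ha => ?_⟩
  rw [← Places_nonunits_iff hg, map_sub, Places_conj_apply, map_pow]
  exact hφ.2 _ ((hg a).2 ha)

end Frob

theorem places : Stmt_Places := by
  intro k _ ρ ψ hψ q A σ hq hA hσ
  constructor
  · rintro hno A' hA' ⟨m, hm, hcob⟩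
    obtain ⟨g, hg⟩ := CFT.Num.DC_transitive CFT.GN.dictA CFT.GN.dictD hq hA hA'
    -- `g σ g⁻¹ ∈ Dec A'`
    have hg' : ∀ x : Qb, g⁻¹ x ∈ A ↔ x ∈ A' := by
      intro x
      rw [← hg]
      have : g (g⁻¹ x) = x := g.apply_symm_apply x
      rw [this]
    have hdec : g * σ * g⁻¹ ∈ A'.decompositionSubgroup ℚ := by
      have := Places_dec_conj hg' hσ.mem_decompositionSubgroup
      rwa [inv_inv] at this
    have h1 := hcob _ hdec
    have h2 := Places_conj (Places_actHom.comp ρ) ψ hψ.coc g σ m h1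
    apply hno
    refine ⟨act (ρ g⁻¹) (m + ψ g), ?_, h2⟩
    rw [Places_trace_act, Matrix.trace_add, hm, hψ.tr, add_zero, mul_zero]
  · intro hreg hunr A' hA' φ hφ
    obtain ⟨g, hg⟩ := CFT.Num.DC_transitive CFT.GN.dictA CFT.GN.dictD hq hA hA'
    have h1 : A.IsFrobeniusAt (g⁻¹ * φ * g) q := Places_frob_conj hg hφ
    have h2 := hunr A hA _ (Places_frob_div A q σ _ hσ h1)
    have h3 : ρ φ = ρ g * ρ σ * (ρ g)⁻¹ := by
      rw [map_mul, map_inv, inv_mul_eq_one] at h2
      rw [h2, map_mul, map_mul, map_inv]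
      group
    obtain ⟨a, b, hab, hcp⟩ := hreg
    refine ⟨a, b, hab, ?_⟩
    have h4 : ((ρ φ : GL (Fin 2) k) : M2 k)
        = ((ρ g : GL (Fin 2) k) : M2 k) * (ρ σ : M2 k) * (((ρ g)⁻¹ : GL (Fin 2) k) : M2 k) := by
      rw [h3, Units.val_mul, Units.val_mul]
    rw [h4, ← hcp, Matrix.charpoly_mul_comm, ← Matrix.mul_assoc, ← Units.val_mul, inv_mul_cancel,
      Units.val_one, Matrix.one_mul]

end Fermat.Agent.TW56.Sel

end

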