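import Fermat.Agent.TW56.Sel.Interface
import Fermat.Agent.CFT.GR.FrobOrd

/-!
# TW56 / Sel : SEL-CONG, a Frobenius at `q ≠ p` fixing `μ_{p^(n+1)}` forces `q ≡ 1 mod p^(n+1)`
(helper9)
-/

set_option autoImplicit false

noncomputable section

namespace Fermat.Agent.TW56.Sel

/-- a Frobenius at `q` is the `q`-th power map modulo the maximal ideal. -/
theorem Cong_frob_sub (A : ValuationSubring Qb) {σ : GQ} {q : ℕ} (h : A.IsFrobeniusAt σ q) {t : Qb}
    (ht : t ∈ A) : σ t - t ^ q ∈ A.nonunits := by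
  have h1 := h.smul_residue_eq (IsLocalRing.residue A ⟨t, ht⟩)
  have h3 : IsLocalRing.residue A
      ((⟨σ, h.mem_decompositionSubgroup⟩ : A.decompositionSubgroup ℚ) • (⟨t, ht⟩ : A))
        = IsLocalRing.residue A ((⟨t, ht⟩ : A) ^ q) := by
    rw [map_pow]
    exact h1
  rw [← sub_eq_zero, ← map_sub, IsLocalRing.residue_eq_zero_iff,
    ← ValuationSubring.coe_mem_nonunits_iff] at h3
  exact h3

theorem cong : Stmt_Cong := by
  intro p _ n q A σ hq hqp hA hFr hfix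
  have hp : p.Prime := Fact.out
  have hn0 : p ^ (n + 1) ≠ 0 := pow_ne_zero _ hp.ne_zero
  have hcop : (p ^ (n + 1)).Coprime q :=
    Nat.Coprime.pow_left _ ((Nat.coprime_primes hp hq).2 (Ne.symm hqp))
  have : NeZero ((p ^ (n + 1) : ℕ) : Qb) := ⟨Nat.cast_ne_zero.mpr hn0⟩
  obtain ⟨ζ, hζ⟩ := HasEnoughRootsOfUnity.exists_primitiveRoot Qb (p ^ (n + 1))
  have hζA : ζ ∈ A := CFT.lc_mem_of_pow_eq_one A hn0 hζ.pow_eq_one
  have h1 := Cong_frob_sub A hFr hζA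
  rw [hfix ζ hζ.pow_eq_one] at h1
  have h2 : ζ = ζ ^ q := CFT.GR.FrobOrd.rootsep A hcop hA hζ.pow_eq_one
    (by rw [← pow_mul, mul_comm, pow_mul, hζ.pow_eq_one, one_pow]) h1
  apply hζ.dvd_of_pow_eq_one
  have hζ0 : ζ ≠ 0 := hζ.ne_zero hn0
  obtain ⟨m, rfl⟩ : ∃ m, q = m + 1 := ⟨q - 1, by have := hq.pos; omega⟩
  rw [Nat.add_sub_cancel]
  rw [pow_succ] at h2
  exact (mul_right_cancel₀ hζ0 (by rw [one_mul]; exact h2)).symm

end Fermat.Agent.TW56.Sel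

end
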