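/-
TEAM TW56 -> S56, block [TWSEL], task SEL-FIELD (helper31): the finite normal field `L`.
-/
import Fermat.Agent.TW56.Sel.Interface

set_option autoImplicit false

namespace Fermat.Agent.TW56.Sel

open Matrix Polynomial Fermat.Agent.TW56.Grp

/-- the set of `N`-th roots of unity is finite. -/
theorem Field_finite_roots (N : ℕ) (hN : 0 < N) : {μ : Qb | μ ^ N = 1}.Finite := by
  classical
  refine Set.Finite.subset (Polynomial.nthRoots N (1 : Qb)).toFinset.finite_toSet ?_
  intro μ hμ
  simp only [Finset.mem_coe, Multiset.mem_toFinset]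
  exact (Polynomial.mem_nthRoots hN).mpr hμ

/-- the field generated by the `N`-th roots of unity is finite dimensional. -/
theorem Field_fd_mu (N : ℕ) (hN : 0 < N) :
    FiniteDimensional ℚ (IntermediateField.adjoin ℚ {μ : Qb | μ ^ N = 1}) := by
  have : Finite {μ : Qb | μ ^ N = 1} := (Field_finite_roots N hN).to_subtype
  have hAlg : Algebra.IsAlgebraic ℚ Qb := AlgebraicClosure.isAlgebraic ℚ
  exact IntermediateField.finiteDimensional_adjoin
    (fun x _ => (Algebra.IsAlgebraic.isAlgebraic (R := ℚ) x).isIntegral)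

theorem field : Stmt_Field := by
  intro p hp k _ ρ ψ h1 h2 n
  obtain ⟨F1, hF1, h1⟩ := h1
  obtain ⟨F2, hF2, h2⟩ := h2
  have hN : 0 < p ^ (n + 1) := pow_pos hp.out.pos _
  set F3 : IF := IntermediateField.adjoin ℚ {μ : Qb | μ ^ p ^ (n + 1) = 1} with hF3def
  have hF3 : FiniteDimensional ℚ F3 := Field_fd_mu _ hN
  set F : IF := F1 ⊔ F2 ⊔ F3 with hFdef
  have hF12 : FiniteDimensional ℚ (F1 ⊔ F2 : IF) := IntermediateField.finiteDimensional_sup F1 F2
  have hF : FiniteDimensional ℚ F := IntermediateField.finiteDimensional_sup (F1 ⊔ F2) F3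
  have hAlg : Algebra.IsAlgebraic ℚ Qb := AlgebraicClosure.isAlgebraic ℚ
  have hAC : IsAlgClosure ℚ Qb := ⟨inferInstance, inferInstance⟩
  have : Normal ℚ Qb := IsAlgClosure.normal ℚ Qb
  refine ⟨IntermediateField.normalClosure ℚ F Qb, normalClosure.is_finiteDimensional ℚ F Qb,
    normalClosure.normal ℚ F Qb, ?_⟩
  intro s hs
  have hle : F ≤ IntermediateField.normalClosure ℚ F Qb := F.le_normalClosure
  have hsF : ∀ x ∈ F, s x = x := fun x hx => hs x (hle hx)
  have hs1 : s ∈ F1.fixingSubgroup := by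
    rw [IntermediateField.mem_fixingSubgroup_iff]
    intro x hx
    exact hsF x ((le_sup_left.trans le_sup_left : F1 ≤ F) hx)
  have hs2 : s ∈ F2.fixingSubgroup := by
    rw [IntermediateField.mem_fixingSubgroup_iff]
    intro x hx
    exact hsF x ((le_sup_right.trans le_sup_left : F2 ≤ F) hx)
  refine ⟨h1 s hs1, fun g => h2 g s hs2, ?_⟩
  intro μ hμ
  exact hsF μ ((le_sup_right : F3 ≤ F) (IntermediateField.subset_adjoin ℚ _ hμ))

end Fermat.Agent.TW56.Sel

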