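/-
TEAM TW56 -> S56, block [TWSEL], SEL-MAIN + SEL-SET : assembly.
-/
import Fermat.Agent.TW56.Sel.Interface

set_option autoImplicit false

namespace Fermat.Agent.TW56.Sel

open Matrix Polynomial Fermat.Agent.TW56.Grp

theorem twsel (h1 : Stmt_One) (h2 : Stmt_Cong) (h3 : Stmt_Places) : Stmt_TWSEL := by
  intro p _ k _ _ _ hp ρ hρ ψ hψ hncob n T
  obtain ⟨q, A, σ, hq, hqT, hA, hσ, hfix, hreg, hn⟩ := h1 p k hp ρ hρ ψ hψ hncob n (insert p T)
  have hqp : q ≠ p := fun e => hqT (e ▸ Finset.mem_insert_self _ _)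
  have hqT' : q ∉ T := fun e => hqT (Finset.mem_insert_of_mem e)
  obtain ⟨k1, k2⟩ := h3 k ρ ψ hψ q A σ hq hA hσ
  exact ⟨q, hqT', hq, h2 p n q A σ hq hqp hA hσ hfix, k1 hn, k2 hreg⟩

theorem twset (h : Stmt_TWSEL) : Stmt_TWset := by
  intro p _ k _ _ _ hp ρ hρ r
  induction r with
  | zero =>
    intro ψ _ _ n T
    exact ⟨Fin.elim0, fun i => i.elim0, fun i => i.elim0⟩
  | succ r ih =>
    intro ψ hψ hncob n T
    obtain ⟨q0, hq0T, hq0⟩ := h p k hp ρ hρ (ψ 0) (hψ 0) (hncob 0) n T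
    obtain ⟨qv, hinj, hqv⟩ := ih (fun i => ψ i.succ) (fun i => hψ i.succ) (fun i => hncob i.succ) n
      (insert q0 T)
    refine ⟨Fin.cons q0 qv, ?_, ?_⟩
    · rw [Fin.cons_injective_iff]
      refine ⟨?_, hinj⟩
      rintro ⟨i, hi⟩
      exact (hqv i).1 (hi ▸ Finset.mem_insert_self _ _)
    · intro i
      refine Fin.cases ?_ (fun j => ?_) i
      · exact ⟨hq0T, hq0⟩
      · rw [Fin.cons_succ]
        exact ⟨fun e => (hqv j).1 (Finset.mem_insert_of_mem e), (hqv j).2⟩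

end Fermat.Agent.TW56.Sel
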