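import Fermat.Agent.TW56.Sel.Interface

/-!
# TW56 / Sel / Mat : matrix form of a `ResidualGaloisRep`
-/

set_option autoImplicit false

noncomputable section

namespace Fermat.Agent.TW56.Sel

open Matrix Polynomial Fermat.Agent.TW56.Grp
open scoped TensorProduct

/-- surjectivity of the mod `p` cyclotomic character. -/
theorem Mat_exists_cyc (p : ℕ) [Fact p.Prime] (a : ℕ) (ha : ¬ p ∣ a) :
    ∃ σ : GQ, ∀ μ : Qb, μ ^ p = 1 → σ μ = μ ^ a := by
  have hp : p.Prime := Fact.out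
  have : NeZero p := ⟨hp.ne_zero⟩
  have : NeZero ((p : ℕ) : Qb) := ⟨by exact_mod_cast hp.ne_zero⟩
  have : Algebra.IsAlgebraic ℚ Qb := AlgebraicClosure.isAlgebraic ℚ
  have : IsAlgClosure ℚ Qb := ⟨inferInstance, inferInstance⟩
  have : Normal ℚ Qb := IsAlgClosure.normal ℚ Qb
  obtain ⟨ζ, hζ⟩ := HasEnoughRootsOfUnity.exists_primitiveRoot Qb p
  have hcop : a.Coprime p := ((Nat.Prime.coprime_iff_not_dvd hp).2 ha).symm
  have hζa : IsPrimitiveRoot (ζ ^ a) p := hζ.pow_of_coprime a hcop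
  have hconj : IsConjRoot ℚ (ζ ^ a) ζ := by
    unfold IsConjRoot
    rw [← Polynomial.cyclotomic_eq_minpoly_rat hζ hp.pos,
      ← Polynomial.cyclotomic_eq_minpoly_rat hζa hp.pos]
  obtain ⟨σ, hσ⟩ := isConjRoot_iff_exists_algEquiv.1 hconj
  refine ⟨σ, fun μ hμ => ?_⟩
  obtain ⟨i, -, rfl⟩ := hζ.eq_pow_of_pow_eq_one hμ
  rw [map_pow, hσ, ← pow_mul, ← pow_mul, mul_comm]

variable {k : Type} [Field k]

/-- a line stable under a subgroup `G` gives a proper nonzero stable subspace after base change. -/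
theorem Mat_line (ρbar : ResidualGaloisRep k) (K : Type) [Field K] [Algebra k K]
    (G : Subgroup GQ) (x : ρbar.V) (hx : x ≠ 0) (hG : ∀ σ ∈ G, ∃ c : k, ρbar.ρ σ x = c • x) :
    ∃ W : Submodule K (ρbar.baseChange K).V,
      (∀ σ ∈ G, ∀ y ∈ W, (ρbar.baseChange K).ρ σ y ∈ W) ∧ W ≠ ⊥ ∧ W ≠ ⊤ := by
  have hy0 : (1 : K) ⊗ₜ[k] x ≠ 0 := by
    intro h0
    apply hx
    apply Module.Flat.tensorProduct_mk_injective (R := k) (S := K) (M := ρbar.V)
    rw [map_zero]
    exact h0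
  refine ⟨Submodule.span K {(1 : K) ⊗ₜ[k] x}, ?_, ?_, ?_⟩
  · intro σ hσ y hy
    obtain ⟨c, hc⟩ := hG σ hσ
    obtain ⟨d, rfl⟩ := Submodule.mem_span_singleton.1 hy
    rw [map_smul]
    refine Submodule.smul_mem _ _ ?_
    have e : (ρbar.baseChange K).ρ σ ((1 : K) ⊗ₜ[k] x) = algebraMap k K c • ((1 : K) ⊗ₜ[k] x) := by
      show (ρbar.ρ σ).baseChange K ((1 : K) ⊗ₜ[k] x) = _
      rw [LinearMap.baseChange_tmul, hc, TensorProduct.tmul_smul, algebraMap_smul]
    rw [e]
    exact Submodule.smul_mem _ _ (Submodule.mem_span_singleton_self _)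
  · rw [Ne, Submodule.span_singleton_eq_bot]
    exact hy0
  · intro htop
    have h1 : Module.finrank K (Submodule.span K {(1 : K) ⊗ₜ[k] x}) = 1 :=
      finrank_span_singleton hy0
    rw [htop, finrank_top] at h1
    have h2 := (ρbar.baseChange K).finrank_eq
    rw [h1] at h2
    exact absurd h2 (by norm_num)

/-- **SEL-MAT** -/
theorem mat : Stmt_Mat := by
  intro p _ k _ _ _ ρbar h
  let b : Module.Basis (Fin 2) k ρbar.V := Module.finBasisOfFinrankEq k ρbar.V ρbar.finrank_eq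
  let φ : GQ →* M2 k :=
    ((LinearMap.toMatrixAlgEquiv b : Module.End k ρbar.V ≃ₐ[k] M2 k) :
      Module.End k ρbar.V →* M2 k).comp ρbar.ρ
  let ρ : GQ →* GL (Fin 2) k := φ.toHomUnits
  have hρ : ∀ g, (ρ g : M2 k) = LinearMap.toMatrix b b (ρbar.ρ g) := fun g => rfl
  refine ⟨b, ρ, ⟨?_, ?_, ⟨?_, ?_, ?_⟩⟩, hρ⟩
  · obtain ⟨L, hL, h1⟩ := ρbar.factorsThroughFiniteLevel
    refine ⟨L, hL, fun s hs => ?_⟩
    apply Units.ext
    rw [hρ, h1 s (fun x hx => (IntermediateField.mem_fixingSubgroup_iff L s).1 hs x hx)]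
    exact LinearMap.toMatrix_one b
  · intro σ a ha
    rw [hρ, LinearMap.det_toMatrix]
    exact h.det σ a ha
  · rintro g ⟨σ, rfl⟩
    rw [hρ, LinearMap.charpoly_toMatrix]
    exact h.split σ
  · rintro H ⟨hle, h2⟩ ⟨v, hv0, hv⟩
    -- the vector
    set x : ρbar.V := b.equivFun.symm v with hxdef
    have hrepr : ∀ i, b.repr x i = v i := by
      intro i
      have : b.equivFun x = v := by rw [hxdef, LinearEquiv.apply_symm_apply]
      rw [← this]; rfl
    have hx0 : x ≠ 0 := by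
      intro h0
      apply hv0
      have : b.equivFun x = v := by rw [hxdef, LinearEquiv.apply_symm_apply]
      rw [← this, h0, map_zero]
    have hline : ∀ σ ∈ H.comap ρ, ∃ c : k, ρbar.ρ σ x = c • x := by
      intro σ hσ
      obtain ⟨c, hc⟩ := hv (ρ σ) hσ
      refine ⟨c, ?_⟩
      apply b.repr.injective
      ext i
      have e1 := LinearMap.toMatrix_mulVec_repr b b (ρbar.ρ σ) x
      have e2 : (⇑(b.repr x) : Fin 2 → k) = v := funext hrepr
      rw [e2, ← hρ, hc] at e1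
      have e3 := congrFun e1 i
      rw [← e3, map_smul, Finsupp.smul_apply, hrepr]
      rfl
    by_cases htop : H.comap ρ = ⊤
    · obtain ⟨W, hW1, hW2, hW3⟩ := Mat_line ρbar (AlgebraicClosure k) (H.comap ρ) x hx0 hline
      rcases h.abs W (fun σ y hy => hW1 σ (by rw [htop]; trivial) y hy) with h3 | h3
      · exact hW2 h3
      · exact hW3 h3
    · have hidx : (H.comap ρ).index = 2 := by
        obtain ⟨a, ha⟩ : ∃ a : GQ, a ∉ H.comap ρ := by
          by_contra hcon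
          push Not at hcon
          exact htop (eq_top_iff.2 fun g _ => hcon g)
        rw [Subgroup.index_eq_two_iff]
        refine ⟨a, fun c => ?_⟩
        by_cases hc : c ∈ H.comap ρ
        · right
          refine ⟨hc, fun hca => ha ?_⟩
          exact ((H.comap ρ).mul_mem_cancel_left hc).1 hca
        · left
          refine ⟨?_, hc⟩
          show ρ (c * a) ∈ H
          rw [map_mul]
          exact h2 _ ⟨c, rfl⟩ _ ⟨a, rfl⟩ hc ha
      obtain ⟨W, hW1, hW2, hW3⟩ := Mat_line ρbar (AlgebraicClosure k) (H.comap ρ) x hx0 hline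
      rcases h.tw (AlgebraicClosure k) (H.comap ρ) hidx W hW1 with h3 | h3
      · exact hW2 h3
      · exact hW3 h3
  · intro a ha
    obtain ⟨σ, hσ⟩ := Mat_exists_cyc p a ha
    refine ⟨ρ σ, ⟨σ, rfl⟩, ?_⟩
    rw [hρ, LinearMap.det_toMatrix]
    exact h.det σ a hσ

end Fermat.Agent.TW56.Sel

end
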