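/-
TEAM TW56 -> S56, block [TWSEL], package SEL-ONE: the Frobenius density theorem applied.
-/
import Fermat.Agent.TW56.Sel.Interface
import Fermat.Agent.FD.Main

set_option autoImplicit false

noncomputable section

namespace Fermat.Agent.TW56.Sel

open Matrix Polynomial Fermat.Agent.TW56.Grp

theorem one (hP : Stmt_Pick) (hF : Stmt_Field) (hTr : Stmt_Trans) : Stmt_One := by
  intro p _ k _ _ _ hp2 ρ hρ ψ hψ hncob n T
  obtain ⟨g, hg1, hg2, hg3⟩ := hP p k hp2 ρ hρ ψ hψ hncob n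
  obtain ⟨L, hL1, hL2, hL⟩ := hF p k ρ ψ hρ.lev hψ.lev n
  obtain ⟨q, A, σ, j, j', hq, hqT, hA, hσ, h1, h2⟩ := FD.stmt_FD L g T
  have hs : ∀ x ∈ L, ((σ ^ j)⁻¹ * g) x = x := by
    intro x hx
    rw [AlgEquiv.mul_apply, h1 x hx]
    exact (σ ^ j).symm_apply_apply x
  have hs' : ∀ x ∈ L, ((g ^ j')⁻¹ * σ) x = x := by
    intro x hx
    rw [AlgEquiv.mul_apply, h2 x hx]
    exact (g ^ j').symm_apply_apply x
  have hsplit : ∀ g : GQ, ∃ a b : k, (ρ g : M2 k).charpoly = (X - C a) * (X - C b) :=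
    fun g => hρ.big.split (ρ g) ⟨g, rfl⟩
  obtain ⟨r1, r2, r3⟩ := hTr p k ρ ψ hψ hsplit n g σ ((σ ^ j)⁻¹ * g) ((g ^ j')⁻¹ * σ) j j'
    (by rw [mul_inv_cancel_left]) (by rw [mul_inv_cancel_left]) (hL _ hs) (hL _ hs') hg1 hg2 hg3
  exact ⟨q, A, σ, hq, hqT, hA, hσ, r1, r2, r3⟩

end Fermat.Agent.TW56.Sel

end
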