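/-
TEAM TW56 -> S56, block [TWSEL], task SEL-PICK : the group element `g` (`Stmt_Pick`).
-/
import Fermat.Agent.TW56.Sel.Interface
import Fermat.Agent.TW56.Grp.Api

set_option autoImplicit false

noncomputable section

namespace Fermat.Agent.TW56.Sel

open Matrix Polynomial Fermat.Agent.TW56.Grp

variable {k : Type} [Field k]

/-! ### roots of unity -/

/-- every automorphism acts on `μ_m` by a power. -/
theorem Pick_exists_pow (m : ℕ) [NeZero m] (g : GQ) :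
    ∃ a : ℕ, ∀ μ : Qb, μ ^ m = 1 → g μ = μ ^ a := by
  obtain ⟨ζ, hζ⟩ := HasEnoughRootsOfUnity.exists_primitiveRoot Qb m
  have h1 : (g ζ) ^ m = 1 := by rw [← map_pow, hζ.pow_eq_one, map_one]
  obtain ⟨a, -, ha⟩ := hζ.eq_pow_of_pow_eq_one h1
  refine ⟨a, fun μ hμ => ?_⟩
  obtain ⟨i, -, hi⟩ := hζ.eq_pow_of_pow_eq_one hμ
  rw [← hi, map_pow, ← ha, ← pow_mul, ← pow_mul, mul_comm]

theorem Pick_map_mem (m : ℕ) (g : GQ) {μ : Qb} (hμ : μ ^ m = 1) : (g μ) ^ m = 1 := by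
  rw [← map_pow, hμ, map_one]

/-- the action on `μ_m` is commutative. -/
theorem Pick_comm (m : ℕ) [NeZero m] (g h : GQ) {μ : Qb} (hμ : μ ^ m = 1) :
    g (h μ) = h (g μ) := by
  obtain ⟨a, ha⟩ := Pick_exists_pow m g
  obtain ⟨b, hb⟩ := Pick_exists_pow m h
  rw [hb μ hμ, map_pow, ha μ hμ, map_pow, hb μ hμ, ← pow_mul, ← pow_mul, mul_comm]

/-- the subgroup of the `g` fixing `μ_{p^(n+1)}`. -/
def Pick_Hmu (p n : ℕ) : Subgroup GQ where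
  carrier := {g | FixMu p n g}
  mul_mem' := by
    intro a b ha hb μ hμ
    rw [AlgEquiv.mul_apply, hb μ hμ, ha μ hμ]
  one_mem' := fun μ _ => rfl
  inv_mem' := by
    intro a ha μ hμ
    have h1 := ha μ hμ
    calc a⁻¹ μ = a⁻¹ (a μ) := by rw [h1]
      _ = (a⁻¹ * a) μ := rfl
      _ = μ := by rw [inv_mul_cancel]; rfl

theorem Pick_mem_Hmu {p n : ℕ} {g : GQ} : g ∈ Pick_Hmu p n ↔ FixMu p n g := Iff.rfl

theorem Pick_conj_mem {p n : ℕ} (γ : GQ) {η : GQ} (hη : FixMu p n η) :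
    FixMu p n (γ * η * γ⁻¹) := by
  intro μ hμ
  have h1 : (γ⁻¹ μ) ^ p ^ (n + 1) = 1 := Pick_map_mem _ _ hμ
  calc (γ * η * γ⁻¹) μ = γ (η (γ⁻¹ μ)) := rfl
    _ = γ (γ⁻¹ μ) := by rw [hη _ h1]
    _ = (γ * γ⁻¹) μ := rfl
    _ = μ := by rw [mul_inv_cancel]; rfl

theorem Pick_commutator_mem {p : ℕ} (hp : p ≠ 0) (n : ℕ) (γ η : GQ) :
    FixMu p n (γ * η * γ⁻¹ * η⁻¹) := by
  intro μ hμ
  have : NeZero (p ^ (n + 1)) := ⟨pow_ne_zero _ hp⟩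
  have h1 : (η⁻¹ μ) ^ p ^ (n + 1) = 1 := Pick_map_mem _ _ hμ
  have h2 : (γ⁻¹ (η⁻¹ μ)) ^ p ^ (n + 1) = 1 := Pick_map_mem _ _ h1
  calc (γ * η * γ⁻¹ * η⁻¹) μ = γ (η (γ⁻¹ (η⁻¹ μ))) := rfl
    _ = η (γ (γ⁻¹ (η⁻¹ μ))) := Pick_comm _ γ η h2
    _ = (η * (γ * γ⁻¹) * η⁻¹) μ := rfl
    _ = μ := by rw [mul_inv_cancel, mul_one, mul_inv_cancel]; rfl

theorem Pick_det_one {p : ℕ} {ρ : GQ →* GL (Fin 2) k} (hρ : RhoHyp p ρ) {n : ℕ} {η : GQ}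
    (hη : FixMu p n η) : (ρ η : M2 k).det = 1 := by
  have h1 := hρ.det η 1 (fun μ hμ => by
    rw [pow_one]
    apply hη
    rw [pow_succ', pow_mul, hμ, one_pow])
  rw [h1, Nat.cast_one]

/-! ### cocycles -/

theorem Pick_map_one {ρ : GQ →* GL (Fin 2) k} {ψ : GQ → M2 k} (h : IsCocQ ρ ψ) : ψ 1 = 0 := by
  have h1 := h.coc 1 1
  rw [mul_one, map_one, act_one] at h1
  exact left_eq_add.mp h1

theorem Pick_conj {ρ : GQ →* GL (Fin 2) k} {ψ : GQ → M2 k} (h : IsCocQ ρ ψ) (γ : GQ) {s : GQ}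
    (hs : ρ s = 1) : ψ (γ * s * γ⁻¹) = act (ρ γ) (ψ s) := by
  have h1 := h.coc γ γ⁻¹
  rw [mul_inv_cancel, Pick_map_one h] at h1
  rw [h.coc (γ * s) γ⁻¹, h.coc γ s, map_mul, hs, mul_one]
  rw [add_right_comm, ← h1, zero_add]

/-- **SEL-PICK**. -/
theorem pick (hT : Stmt_Tower) (h2 : Grp.Stmt_AdIrr) (h3 : Grp.Stmt_RegSS)
    (h4 : Grp.Stmt_Coker) : Stmt_Pick := by
  intro p _ k _ _ _ hp2 ρ hρ ψ hψ hncob n
  have hp0 : p ≠ 0 := (Fact.out : p.Prime).ne_zero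
  -- the regular semisimple element
  obtain ⟨h, hh, a, b, hab, hchar⟩ := h3 p k hp2 ρ.range hρ.big ((Pick_Hmu p n).map ρ)
    (by
      rintro _ ⟨η, -, rfl⟩
      exact ⟨η, rfl⟩)
    (by
      rintro _ ⟨γ, rfl⟩ _ ⟨η, hη, rfl⟩
      exact ⟨γ * η * γ⁻¹, Pick_conj_mem γ hη, by rw [map_mul, map_mul, map_inv]⟩)
    (by
      rintro _ ⟨γ, rfl⟩ _ ⟨η, rfl⟩
      exact ⟨γ * η * γ⁻¹ * η⁻¹, Pick_commutator_mem hp0 n γ η, by
        rw [map_mul, map_mul, map_mul, map_inv, map_inv]⟩)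
    (by
      rintro _ ⟨η, hη, rfl⟩
      exact Pick_det_one hρ hη)
  obtain ⟨σ₀, hσ₀, rfl⟩ := hh
  have hσ₀' : FixMu p n σ₀ := hσ₀
  obtain ⟨φ, ⟨m₀, hm₀, hφm₀⟩, hφ⟩ := h4 k (ρ σ₀) a b hab hchar
  -- a nonzero value
  have hex : ∃ s : GQ, ρ s = 1 ∧ FixMu p n s ∧ ψ s ≠ 0 := by
    by_contra hcon
    apply hncob
    apply hT p k hp2 ρ hρ ψ hψ n
    intro s hs1 hs2
    by_contra hs3
    exact hcon ⟨s, hs1, hs2, hs3⟩
  obtain ⟨s₀, hs₀1, hs₀2, hs₀3⟩ := hex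
  -- the span
  set W : Submodule k (M2 k) := Submodule.span k {m | ∃ s : GQ, ρ s = 1 ∧ FixMu p n s ∧ ψ s = m}
    with hW
  have hWtr : ∀ m ∈ W, m.trace = 0 := by
    have h1 : W ≤ LinearMap.ker (Matrix.traceLinearMap (Fin 2) k k) := by
      rw [hW, Submodule.span_le]
      rintro _ ⟨s, -, -, rfl⟩
      exact hψ.tr s
    intro m hm
    exact h1 hm
  have hWst : ∀ g ∈ ρ.range, ∀ m ∈ W, act g m ∈ W := by
    rintro _ ⟨γ, rfl⟩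
    have h1 : W ≤ W.comap (actHom (ρ γ)) := by
      rw [hW, Submodule.span_le]
      rintro _ ⟨s, hs1, hs2, rfl⟩
      apply Submodule.subset_span
      refine ⟨γ * s * γ⁻¹, ?_, Pick_conj_mem γ hs2, ?_⟩
      · rw [map_mul, map_mul, hs1, mul_one, map_inv, mul_inv_cancel]
      · rw [Pick_conj hψ γ hs1]; rfl
    intro m hm
    exact h1 hm
  have hWall := h2 p k hp2 ρ.range hρ.big W hWtr hWst
    ⟨ψ s₀, Submodule.subset_span ⟨s₀, hs₀1, hs₀2, rfl⟩, hs₀3⟩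
  have hex1 : ∃ s : GQ, ρ s = 1 ∧ FixMu p n s ∧ φ (ψ s) ≠ 0 := by
    by_contra hcon
    have h1 : W ≤ LinearMap.ker φ := by
      rw [hW, Submodule.span_le]
      rintro _ ⟨s, hs1, hs2, rfl⟩
      by_contra hs3
      exact hcon ⟨s, hs1, hs2, hs3⟩
    exact hφm₀ (h1 (hWall m₀ hm₀))
  obtain ⟨s₁, hs₁1, hs₁2, hs₁3⟩ := hex1
  -- the element
  have hkey : ∃ g : GQ, FixMu p n g ∧ ρ g = ρ σ₀ ∧ φ (ψ g) ≠ 0 := by
    by_cases h0 : φ (ψ σ₀) = 0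
    · refine ⟨s₁ * σ₀, (Pick_Hmu p n).mul_mem hs₁2 hσ₀', by rw [map_mul, hs₁1, one_mul], ?_⟩
      rw [hψ.coc, hs₁1, act_one, map_add, h0, add_zero]
      exact hs₁3
    · exact ⟨σ₀, hσ₀', rfl, h0⟩
  obtain ⟨g, hg1, hg2, hg3⟩ := hkey
  refine ⟨g, hg1, ?_, ?_⟩
  · rw [hg2]; exact ⟨a, b, hab, hchar⟩
  · rintro ⟨m, -, hm⟩
    apply hg3
    rw [hm, hg2]
    unfold act
    rw [Pick_det_one hρ hσ₀', one_smul]
    exact hφ m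

end Fermat.Agent.TW56.Sel

end
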