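import Fermat.Agent.TW56.Sel.Interface

/-!
# TW56 / Sel / SEL-TOWER : `H¹` of the tower `ℚ(ρ̄, μ_{p^(n+1)})` vanishes (`Stmt_Tower`)
-/

set_option autoImplicit false

noncomputable section

namespace Fermat.Agent.TW56.Sel

open Matrix Polynomial Fermat.Agent.TW56.Grp

section Act

variable {k : Type} [Field k]

theorem Tower_act_one (m : M2 k) : act 1 m = m := by
  simp [act]

theorem Tower_act_smul (g : GL (Fin 2) k) (c : k) (m : M2 k) : act g (c • m) = c • act g m := by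
  simp only [act, Matrix.mul_smul, Matrix.smul_mul]
  rw [smul_comm]

end Act

/-- automorphisms commute on roots of unity. -/
theorem Tower_comm_mu (N : ℕ) (hN : N ≠ 0) (σ τ : GQ) (μ : Qb) (hμ : μ ^ N = 1) :
    σ (τ μ) = τ (σ μ) := by
  have : NeZero N := ⟨hN⟩
  have : NeZero (N : Qb) := ⟨by exact_mod_cast hN⟩
  obtain ⟨ζ, hζ⟩ := HasEnoughRootsOfUnity.exists_primitiveRoot Qb N
  obtain ⟨a, -, ha⟩ := hζ.eq_pow_of_pow_eq_one (ξ := σ ζ) (by rw [← map_pow, hζ.pow_eq_one, map_one])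
  obtain ⟨b, -, hb⟩ := hζ.eq_pow_of_pow_eq_one (ξ := τ ζ) (by rw [← map_pow, hζ.pow_eq_one, map_one])
  obtain ⟨c, -, hc⟩ := hζ.eq_pow_of_pow_eq_one hμ
  rw [← hc, map_pow, map_pow, map_pow, map_pow, ← hb, ← ha, map_pow, map_pow, ← hb, ← ha,
    ← pow_mul ζ a b, ← pow_mul ζ b a, mul_comm a b]

theorem tower (h1 : Grp.Stmt_H1van) (h2 : Grp.Stmt_AdIrr) : Stmt_Tower := by
  intro p _ k _ _ _ hp2 ρ hρ ψ hψ n H
  have hp : p.Prime := Fact.out
  have hN : p ^ (n + 1) ≠ 0 := pow_ne_zero _ hp.ne_zero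
  -- `ψ 1 = 0`
  have hψ1 : ψ 1 = 0 := by
    have h := hψ.coc 1 1
    rw [mul_one, map_one, Tower_act_one] at h
    exact left_eq_add.mp h
  -- (1a) `ψ x` is invariant if `ρ x = 1`
  have hinv : ∀ x : GQ, ρ x = 1 → ∀ g : GQ, act (ρ g) (ψ x) = ψ x := by
    intro x hx g
    have hy1 : ρ (g * x * g⁻¹ * x⁻¹) = 1 := by
      rw [map_mul, map_mul, map_mul, map_inv, map_inv, hx]
      simp
    have hy2 : FixMu p n (g * x * g⁻¹ * x⁻¹) := by
      intro μ hμ
      have hν : (x⁻¹ μ) ^ p ^ (n + 1) = 1 := by rw [← map_pow, hμ, map_one]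
      show g (x (g⁻¹ (x⁻¹ μ))) = μ
      rw [Tower_comm_mu _ hN x g⁻¹ _ hν]
      have e1 : x (x⁻¹ μ) = μ := x.apply_symm_apply μ
      rw [e1]
      exact g.apply_symm_apply μ
    have hy := H _ hy1 hy2
    have e1 : ψ (g * x * g⁻¹) = ψ x := by
      have e : g * x * g⁻¹ = (g * x * g⁻¹ * x⁻¹) * x := by group
      rw [e, hψ.coc, hy, hy1, Tower_act_one, zero_add]
    have e2 : ψ (g * x * g⁻¹) = act (ρ g) (ψ x) := by
      have e3 := hψ.coc g g⁻¹
      rw [mul_inv_cancel, hψ1] at e3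
      rw [hψ.coc (g * x) g⁻¹, hψ.coc g x, map_mul, hx, mul_one, add_right_comm, ← e3, zero_add]
    rw [← e2, e1]
  -- (1b) `ψ x = 0` if `ρ x = 1`
  have hker : ∀ x : GQ, ρ x = 1 → ψ x = 0 := by
    intro x hx
    by_contra hm0
    have hW := h2 p k hp2 ρ.range hρ.big (Submodule.span k {ψ x}) ?_ ?_ ⟨ψ x,
      Submodule.mem_span_singleton_self _, hm0⟩
    · obtain ⟨c, hc⟩ := Submodule.mem_span_singleton.1
        (hW !![0, 1; 0, 0] (by simp [Matrix.trace_fin_two]))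
      obtain ⟨c', hc'⟩ := Submodule.mem_span_singleton.1
        (hW !![0, 0; 1, 0] (by simp [Matrix.trace_fin_two]))
      have a1 : c * ψ x 0 1 = 1 := by simpa using congrFun (congrFun hc 0) 1
      have a2 : c * ψ x 1 0 = 0 := by simpa using congrFun (congrFun hc 1) 0
      have a3 : c' * ψ x 1 0 = 1 := by simpa using congrFun (congrFun hc' 1) 0
      have hc0 : c ≠ 0 := by
        rintro rfl
        rw [zero_mul] at a1
        exact zero_ne_one a1
      have a4 : ψ x 1 0 = 0 := (mul_eq_zero.1 a2).resolve_left hc0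
      rw [a4, mul_zero] at a3
      exact zero_ne_one a3
    · intro m hm
      obtain ⟨c, rfl⟩ := Submodule.mem_span_singleton.1 hm
      rw [Matrix.trace_smul, hψ.tr, smul_zero]
    · rintro _ ⟨g, rfl⟩ m hm
      obtain ⟨c, rfl⟩ := Submodule.mem_span_singleton.1 hm
      rw [Tower_act_smul, hinv x hx g]
      exact Submodule.smul_mem _ _ (Submodule.mem_span_singleton_self _)
  -- (2) `ψ` factors through `ρ`
  have hfac : ∀ g g' : GQ, ρ g = ρ g' → ψ g = ψ g' := by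
    intro g g' hgg
    have e : g' = g * (g⁻¹ * g') := by group
    have e1 : ρ (g⁻¹ * g') = 1 := by rw [map_mul, map_inv, hgg, inv_mul_cancel]
    rw [e, hψ.coc, hker _ e1]
    simp [act]
  classical
  let κ : GL (Fin 2) k → M2 k := fun γ => if h : γ ∈ ρ.range then ψ h.choose else 0
  have hκ : ∀ g : GQ, κ (ρ g) = ψ g := by
    intro g
    have hg : ρ g ∈ ρ.range := ⟨g, rfl⟩
    have e : κ (ρ g) = ψ hg.choose := dif_pos hg
    rw [e]
    exact hfac _ _ hg.choose_spec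
  have hcoc : IsCoc ρ.range κ := by
    constructor
    · rintro _ ⟨g, rfl⟩
      rw [hκ]
      exact hψ.tr g
    · rintro _ ⟨g, rfl⟩ _ ⟨h, rfl⟩
      rw [← map_mul, hκ, hκ, hκ]
      exact hψ.coc g h
  obtain ⟨m, hm, hcob⟩ := h1 p k hp2 ρ.range hρ.big κ hcoc
  exact ⟨m, hm, fun g _ => by rw [← hκ]; exact hcob _ ⟨g, rfl⟩⟩

end Fermat.Agent.TW56.Sel

end
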