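/-
TEAM TW56 -> S56, block [TWSEL] : SEL-TRANS, transport along equal cyclic subgroups.
-/
import Fermat.Agent.TW56.Sel.Interface
import Fermat.Agent.TW56.Grp.Api

set_option autoImplicit false

namespace Fermat.Agent.TW56.Sel

open Matrix Polynomial Fermat.Agent.TW56.Grp

section Mat

variable {k : Type} [Field k]

theorem Trans_tr_det (B : M2 k) (a b : k) (h : B.charpoly = (X - C a) * (X - C b)) :
    B.trace = a + b ∧ B.det = a * b := by
  rw [Matrix.charpoly_fin_two] at h
  have h0 := congrArg (Polynomial.eval 0) h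
  have h1 := congrArg (Polynomial.eval 1) h
  simp at h0 h1
  refine ⟨?_, h0⟩
  rw [h0] at h1
  linear_combination -h1

theorem Trans_charpoly_of (B : M2 k) (a b : k) (htr : B.trace = a + b) (hdet : B.det = a * b) :
    B.charpoly = (X - C a) * (X - C b) := by
  rw [Matrix.charpoly_fin_two, htr, hdet, C_add, C_mul]
  ring

/-- a matrix with a double eigenvalue : all its powers have a double eigenvalue. -/
theorem Trans_pow_double (B : M2 k) (a : k) (h : B.charpoly = (X - C a) * (X - C a)) (j : ℕ) :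
    (B ^ j).charpoly = (X - C (a ^ j)) * (X - C (a ^ j)) := by
  obtain ⟨htr, hdet⟩ := Trans_tr_det B a a h
  set Nn : M2 k := B - a • (1 : M2 k) with hN
  have hNN : Nn * Nn = 0 := by
    have h1 := Matrix.aeval_self_charpoly B
    rw [h, map_mul, map_sub, aeval_X, aeval_C, Algebra.algebraMap_eq_smul_one] at h1
    exact h1
  have hNtr : Nn.trace = 0 := by
    rw [hN, Matrix.trace_sub, Matrix.trace_smul, Matrix.trace_one, htr]
    simp
    ring
  have hB : B = a • (1 : M2 k) + Nn := by rw [hN]; abel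
  have key : ∀ i : ℕ, ∃ c : k, B ^ i = (a ^ i) • (1 : M2 k) + c • Nn := by
    intro i
    induction i with
    | zero => exact ⟨0, by simp⟩
    | succ i ih =>
      obtain ⟨c, hc⟩ := ih
      refine ⟨a ^ i + c * a, ?_⟩
      rw [pow_succ, hc]
      conv_lhs => rw [hB]
      rw [add_mul, mul_add, mul_add, smul_mul_smul_comm, one_mul, smul_mul_assoc, one_mul,
        smul_mul_smul_comm, mul_one, smul_mul_assoc, hNN, smul_zero, add_zero, add_smul,
        pow_succ, add_assoc]
  obtain ⟨c, hc⟩ := key j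
  refine Trans_charpoly_of _ _ _ ?_ ?_
  · rw [hc, Matrix.trace_add, Matrix.trace_smul, Matrix.trace_smul, hNtr, Matrix.trace_one]
    simp
    ring
  · rw [Matrix.det_pow, hdet, mul_pow]

theorem Trans_not_double (B : M2 k) (c a b : k) (hab : a ≠ b)
    (h1 : B.charpoly = (X - C a) * (X - C b)) (h2 : B.charpoly = (X - C c) * (X - C c)) :
    False := by
  rw [h1] at h2
  have ha := congrArg (Polynomial.eval a) h2
  have hb := congrArg (Polynomial.eval b) h2
  simp at ha hb
  exact hab ((sub_eq_zero.1 ha).trans (sub_eq_zero.1 hb).symm)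

end Mat

theorem Trans_fixMu_pow {p n : ℕ} {g : GQ} (h : FixMu p n g) (i : ℕ) : FixMu p n (g ^ i) := by
  intro μ hμ
  induction i with
  | zero => simp
  | succ i ih => rw [pow_succ, AlgEquiv.mul_apply, h μ hμ, ih]

theorem Trans_psi_one {k : Type} [Field k] {ρ : GQ →* GL (Fin 2) k} {ψ : GQ → M2 k}
    (h : IsCocQ ρ ψ) : ψ 1 = 0 := by
  have h1 := h.coc 1 1
  rw [mul_one, map_one, act_one] at h1
  exact left_eq_add.1 h1

theorem Trans_psi_pow {k : Type} [Field k] {ρ : GQ →* GL (Fin 2) k} {ψ : GQ → M2 k}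
    (h : IsCocQ ρ ψ) {σ : GQ} {m : M2 k} (hm : ψ σ = act (ρ σ) m - m) (i : ℕ) :
    ψ (σ ^ i) = act (ρ (σ ^ i)) m - m := by
  induction i with
  | zero => rw [pow_zero, Trans_psi_one h, map_one, act_one, sub_self]
  | succ i ih =>
    rw [pow_succ, h.coc, ih, hm, act_sub, map_mul, act_mul]
    abel

theorem trans : Stmt_Trans := by
  intro p _ k _ ρ ψ hcoc hsplit n g σ s s' j j' hg hσ hs hs' hgμ hreg hncob
  have hρg : ρ g = ρ σ ^ j := by
    rw [hg, map_mul, hs.1, mul_one, map_pow]
  refine ⟨?_, ?_, ?_⟩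
  · intro μ hμ
    rw [hσ, AlgEquiv.mul_apply, hs'.2.2 μ hμ]
    exact Trans_fixMu_pow hgμ j' μ hμ
  · obtain ⟨a, b, hab⟩ := hsplit σ
    refine ⟨a, b, ?_, hab⟩
    rintro rfl
    obtain ⟨a', b', hab', hc'⟩ := hreg
    have h1 := Trans_pow_double _ a hab j
    have h2 : ((ρ g : GL (Fin 2) k) : M2 k) = ((ρ σ : GL (Fin 2) k) : M2 k) ^ j := by
      rw [hρg]
      simp
    rw [← h2] at h1
    exact Trans_not_double _ _ _ _ hab' hc' h1
  · rintro ⟨m, hm0, hm⟩
    apply hncob
    refine ⟨m, hm0, ?_⟩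
    have h1 := Trans_psi_pow hcoc hm j
    rw [map_pow, ← hρg] at h1
    rw [← h1, hg]
    exact hs.2.1 _

end Fermat.Agent.TW56.Sel

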