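/-
TEAM TW56 -> S56, block [TWSEL], package SEL-V (helper17): the final form for a
`ResidualGaloisRep` (endomorphisms of `V` instead of matrices).
-/
import Fermat.Agent.TW56.Sel.Interface

set_option autoImplicit false

noncomputable section

namespace Fermat.Agent.TW56.Sel

open Matrix Polynomial Fermat.Agent.TW56.Grp

variable {k : Type} [Field k]

section

variable (ρbar : ResidualGaloisRep k) (b : Module.Basis (Fin 2) k ρbar.V)
  (ρ : GQ →* GL (Fin 2) k) (hmat : ∀ g, (ρ g : M2 k) = LinearMap.toMatrix b b (ρbar.ρ g))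

include hmat

theorem V_act (g : GQ) (m : Module.End k ρbar.V) :
    LinearMap.toMatrix b b (actV ρbar g m) = act (ρ g) (LinearMap.toMatrix b b m) := by
  unfold actV act
  rw [map_smul, LinearMap.toMatrix_mul, LinearMap.toMatrix_mul, ← map_inv, hmat g, hmat g⁻¹,
    LinearMap.det_toMatrix]

omit hmat in
theorem V_trace (m : Module.End k ρbar.V) :
    (LinearMap.toMatrix b b m).trace = LinearMap.trace k ρbar.V m :=
  (LinearMap.trace_eq_matrix_trace k b m).symm

theorem V_coc {ψ : GQ → Module.End k ρbar.V} (h : IsCocV ρbar ψ) :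
    IsCocQ ρ (fun g => LinearMap.toMatrix b b (ψ g)) where
  tr g := by rw [V_trace, h.tr]
  coc g g' := by
    show LinearMap.toMatrix b b (ψ (g * g')) = _
    rw [h.coc, map_add, V_act ρbar b ρ hmat]
  lev := by
    obtain ⟨F, hF, hl⟩ := h.lev
    exact ⟨F, hF, fun g s hs => by rw [hl g s hs]⟩

theorem V_cob {ψ : GQ → Module.End k ρbar.V} {D : Subgroup GQ}
    (h : IsCobOn ρ (fun g => LinearMap.toMatrix b b (ψ g)) D) : IsCobV ρbar ψ D := by
  obtain ⟨m, hm, hg⟩ := h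
  refine ⟨(LinearMap.toMatrix b b).symm m, ?_, fun g hgD => ?_⟩
  · rw [← V_trace ρbar b, LinearEquiv.apply_symm_apply, hm]
  · apply (LinearMap.toMatrix b b).injective
    rw [map_sub, V_act ρbar b ρ hmat, LinearEquiv.apply_symm_apply]
    exact hg g hgD

theorem V_one {g : GQ} (h : ρbar.ρ g = 1) : ρ g = 1 := by
  apply Units.ext
  rw [hmat g, h, LinearMap.toMatrix_one]
  rfl

theorem V_reg {g : GQ} (h : Reg (ρ g)) :
    ∃ α β : k, α ≠ β ∧ LinearMap.charpoly (ρbar.ρ g) = (X - C α) * (X - C β) := by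
  obtain ⟨α, β, hne, hc⟩ := h
  refine ⟨α, β, hne, ?_⟩
  rw [← hc, hmat g, LinearMap.charpoly_toMatrix]

end

/-- **SEL-V**. -/
theorem twsetV (h1 : Stmt_Mat) (h2 : Stmt_TWset) : Stmt_TWsetV := by
  intro p _ k _ _ _ hp2 ρbar hR r ψ hcoc hncob n T hunr
  obtain ⟨b, ρ, hρ, hmat⟩ := h1 p k ρbar hR
  obtain ⟨qv, hinj, hq⟩ := h2 p k hp2 ρ hρ r (fun i g => LinearMap.toMatrix b b (ψ i g))
    (fun i => V_coc ρbar b ρ hmat (hcoc i))
    (fun i hc => hncob i (V_cob ρbar b ρ hmat hc)) n T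
  refine ⟨qv, hinj, fun i => ?_⟩
  obtain ⟨hT, hprime, hdvd, hnc, hreg⟩ := hq i
  refine ⟨hprime, hT, hdvd, fun A hA hc => hnc A hA ?_, fun A hA φ hφ => ?_⟩
  · obtain ⟨m, hm, hg⟩ := hc
    refine ⟨LinearMap.toMatrix b b m, by rw [V_trace, hm], fun g hgD => ?_⟩
    show LinearMap.toMatrix b b (ψ i g) = _
    rw [hg g hgD, map_sub, V_act ρbar b ρ hmat]
  · exact V_reg ρbar b ρ hmat (hreg
      (fun A' hA' σ hσ => V_one ρbar b ρ hmat (hunr (qv i) hprime hT A' hA' σ hσ)) A hA φ hφ)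

end Fermat.Agent.TW56.Sel

end
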