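/-
TEAM TW56 -> S56, block [TWSEL] (helper74): all packages put together.
-/
import Fermat.Agent.TW56.Grp.All
import Fermat.Agent.TW56.Sel.Tower
import Fermat.Agent.TW56.Sel.Pick
import Fermat.Agent.TW56.Sel.Field
import Fermat.Agent.TW56.Sel.Trans
import Fermat.Agent.TW56.Sel.One
import Fermat.Agent.TW56.Sel.Cong
import Fermat.Agent.TW56.Sel.Places
import Fermat.Agent.TW56.Sel.Main
import Fermat.Agent.TW56.Sel.Mat
import Fermat.Agent.TW56.Sel.V

set_option autoImplicit false

namespace Fermat.Agent.TW56.Sel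

theorem all_tower_of (hT : Grp.Stmt_LemmaT) : Stmt_Tower := tower (Grp.all_h1van_of hT) Grp.adIrr

theorem all_pick_of (hT : Grp.Stmt_LemmaT) : Stmt_Pick :=
  pick (all_tower_of hT) Grp.adIrr Grp.regSS Grp.coker

theorem all_twsel_of (hT : Grp.Stmt_LemmaT) : Stmt_TWSEL :=
  twsel (one (all_pick_of hT) field trans) cong places

theorem all_twset_of (hT : Grp.Stmt_LemmaT) : Stmt_TWset := twset (all_twsel_of hT)

/-- Taylor-Wiles primes, final form, modulo Lemma T. -/
theorem all_twsetV_of (hT : Grp.Stmt_LemmaT) : Stmt_TWsetV := twsetV mat (all_twset_of hT)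

end Fermat.Agent.TW56.Sel
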