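/-
TEAM TW56, blocks [GRP] + [TWSEL] (helper74): the UNCONDITIONAL outputs.
-/
import Fermat.Agent.TW56.Sel.All
import Fermat.Agent.TW56.Grp.LemmaT

set_option autoImplicit false

namespace Fermat.Agent.TW56.Grp

/-- Lemma T, unconditional. -/
theorem done_lemmaT : Stmt_LemmaT := lemmaT all_count

/-- `H¹(𝒢, ad⁰ ⊗ det) = 0`, unconditional. -/
theorem done_h1van : Stmt_H1van := all_h1van_of done_lemmaT

end Fermat.Agent.TW56.Grp

namespace Fermat.Agent.TW56.Sel

theorem done_tower : Stmt_Tower := all_tower_of Grp.done_lemmaT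

theorem done_pick : Stmt_Pick := all_pick_of Grp.done_lemmaT

theorem done_twsel : Stmt_TWSEL := all_twsel_of Grp.done_lemmaT

/-- Taylor-Wiles sets, matrix form, unconditional. -/
theorem done_twset : Stmt_TWset := all_twset_of Grp.done_lemmaT

/-- the link `ResidualGaloisRep` <-> matrices. -/
theorem done_mat : Stmt_Mat := mat

/-- Taylor-Wiles sets, `End_k V` form, unconditional. -/
theorem done_twsetV : Stmt_TWsetV := all_twsetV_of Grp.done_lemmaT

end Fermat.Agent.TW56.Sel
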